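/-
S52 library, block Semi (helper6): block (2) in the exact shapes consumed by the assembly.

* `modelStatement` / `baseVCStatement`: the bodies of helper4's `ModelStatement`, `BaseVCStatement`
  (`S52lib/Main.lean`, parameter `t₁ = 3u/v` of `Fam.curve`);
* `exists_model_inf`: the chart at infinity, `Fam.curveInf h s u₁` with `h = -9c₄`, `s = -27c₆`
  and an integer `u₁ ≡ 0 mod modulus W` (lead's cut #lead-89).
-/
import Mathlib
import Fermat.Agent.S52lib.Semi.Main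

set_option autoImplicit false
set_option maxHeartbeats 4000000
set_option maxRecDepth 100000

namespace Fermat.Agent.S52lib.Semi

open Fermat.Agent.S52lib.Fam WeierstrassCurve

/-- `W'_ℚ ≅ Fam.curve (-9c₄) (-27c₆) (3m/n)`, in the direction `C • W'_ℚ = curve`. -/
theorem exists_model_vc' {W : WeierstrassCurve ℤ} {m n : ℤ} (hn0 : n ≠ 0) (hn : (1728 : ℤ) ∣ n)
    (hm : (1728 : ℤ) ∣ m - 1) :
    ∃ C : VariableChange ℚ,
      C • ((model W m n).map (Int.castRingHom ℚ)) =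
        Fam.curve (-9 * (W.c₄ : ℚ)) (-27 * (W.c₆ : ℚ)) (3 * (m : ℚ) / (n : ℚ)) := by
  obtain ⟨C, hC⟩ := exists_model_vc (W := W) hn0 hn hm
  refine ⟨C⁻¹, ?_⟩
  rw [← hC, ← mul_smul, inv_mul_cancel, one_smul, mul_div_assoc]

/-- the fibre at `3m/n` is nonsingular. -/
theorem dl_ne_zero {W : WeierstrassCurve ℤ} {m n : ℤ} (hn0 : n ≠ 0) (hn : modulus W ∣ n)
    (hm : modulus W ∣ m - 1) :
    dl (-9 * (W.c₄ : ℚ)) (-27 * (W.c₆ : ℚ)) (3 * (m : ℚ) / (n : ℚ)) ≠ 0 := by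
  have hnq : (n : ℚ) ≠ 0 := by exact_mod_cast hn0
  have e1 : (-9 * (W.c₄ : ℚ)) = 3 ^ 2 * (-(W.c₄ : ℚ)) := by ring
  have e2 : (-27 * (W.c₆ : ℚ)) = 3 ^ 3 * (-(W.c₆ : ℚ)) := by ring
  rw [e1, e2, mul_div_assoc, dl_at _ _ hnq, ← cast_D]
  have hD : ((D W m n : ℤ) : ℚ) ≠ 0 := by exact_mod_cast D_ne_zero hn hm
  exact div_ne_zero (mul_ne_zero (by norm_num) hD) (pow_ne_zero _ hnq)

/-- **block (2)**, the body of helper4's `ModelStatement`. -/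
theorem modelStatement :
    ∀ (W : WeierstrassCurve ℤ), W.Δ ≠ 0 → W.IsSemistableModel → ∀ u v : ℤ, IsCoprime u v → v ≠ 0 →
      (1728 * 5 * 127 * W.Δ) ∣ v → (1728 * 5 * 127 * W.Δ) ∣ u - 1 →
      ∃ W' : WeierstrassCurve ℤ,
        W'.c₄ = -HpH (-W.c₄) (-W.c₆) u v ∧ W'.c₆ = -TpH (-W.c₄) (-W.c₆) u v ∧
        W'.Δ = W.Δ * dlH (-W.c₄) (-W.c₆) u v ^ 5 ∧ W'.Δ ≠ 0 ∧ W'.IsSemistableModel ∧
        dl (-9 * (W.c₄ : ℚ)) (-27 * (W.c₆ : ℚ)) (3 * (u : ℚ) / (v : ℚ)) ≠ 0 ∧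
        ∃ C : VariableChange ℚ,
          C • (W'.map (Int.castRingHom ℚ)) =
            curve (-9 * (W.c₄ : ℚ)) (-27 * (W.c₆ : ℚ)) (3 * (u : ℚ) / (v : ℚ)) := by
  intro W hΔ hss u v hcop hv0 hv hu
  have hv' : modulus W ∣ v := hv
  have hu' : modulus W ∣ u - 1 := hu
  have hn' : (1728 : ℤ) ∣ v := (dvd_modulus_1728 W).trans hv'
  have hm' : (1728 : ℤ) ∣ u - 1 := (dvd_modulus_1728 W).trans hu'
  exact ⟨model W u v, model_c₄ hn' hm', model_c₆ hn' hm', model_Δ hn' hm',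
    model_Δ_ne_zero hΔ hn' hm' (D_ne_zero hv' hu'), model_isSemistable hss hcop hv' hu',
    dl_ne_zero hv0 hv' hu', exists_model_vc' hv0 hn' hm'⟩

/-- **block (2)**, the body of helper4's `BaseVCStatement`. -/
theorem baseVCStatement :
    ∀ (W : WeierstrassCurve ℤ), ∃ C₀ : VariableChange ℚ,
      C₀ • (W.map (Int.castRingHom ℚ)) = base (-9 * (W.c₄ : ℚ)) (-27 * (W.c₆ : ℚ)) :=
  exists_base_vc

/-! ### the chart at infinity -/

section inf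

variable {R : Type*} [CommRing R]

/-- `HpH (9h') (27s') 1 u = 9·HpH h' s' 1 (3u)`. -/
theorem HpH_inf (h s u : R) : HpH (9 * h) (27 * s) 1 u = 9 * HpH h s 1 (3 * u) := by
  unfold HpH
  ring

/-- `TpH (9h') (27s') 1 u = 27·TpH h' s' 1 (3u)`. -/
theorem TpH_inf (h s u : R) : TpH (9 * h) (27 * s) 1 u = 27 * TpH h s 1 (3 * u) := by
  unfold TpH
  ring

/-- `dlH (9h') (27s') 1 u = dlH h' s' 1 (3u)`. -/
theorem dlH_inf (h s u : R) : dlH (9 * h) (27 * s) 1 u = dlH h s 1 (3 * u) := by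
  unfold dlH
  ring

end inf

/-- **block (2) in the chart at infinity**: for an integer `u₁ ≡ 0 mod modulus W` the fibre
`Fam.curveInf (-9c₄) (-27c₆) u₁` has a semistable integral model `W'` with
`9c₄(W') = -HpH h s 1 u₁`, `27c₆(W') = -TpH h s 1 u₁`, `Δ(W') = Δ_W·(dlH h s 1 u₁)⁵`
(`h = -9c₄`, `s = -27c₆`). -/
theorem exists_model_inf {W : WeierstrassCurve ℤ} (hΔ : W.Δ ≠ 0) (hss : W.IsSemistableModel)
    (u₁ : ℤ) (hu : modulus W ∣ u₁) :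
    ∃ W' : WeierstrassCurve ℤ,
      9 * W'.c₄ = -HpH (-9 * W.c₄) (-27 * W.c₆) 1 u₁ ∧
      27 * W'.c₆ = -TpH (-9 * W.c₄) (-27 * W.c₆) 1 u₁ ∧
      W'.Δ = W.Δ * dlH (-9 * W.c₄) (-27 * W.c₆) 1 u₁ ^ 5 ∧ W'.Δ ≠ 0 ∧ W'.IsSemistableModel ∧
      ∃ C : VariableChange ℚ,
        C • (W'.map (Int.castRingHom ℚ)) =
          curveInf (-9 * (W.c₄ : ℚ)) (-27 * (W.c₆ : ℚ)) (u₁ : ℚ) := by
  have hn : modulus W ∣ 3 * u₁ := Dvd.dvd.mul_left hu 3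
  have hm : modulus W ∣ (1 : ℤ) - 1 := by simp
  have hn' : (1728 : ℤ) ∣ 3 * u₁ := (dvd_modulus_1728 W).trans hn
  have hm' : (1728 : ℤ) ∣ (1 : ℤ) - 1 := by simp
  have e9 : (-9 * W.c₄ : ℤ) = 9 * (-W.c₄) := by ring
  have e27 : (-27 * W.c₆ : ℤ) = 27 * (-W.c₆) := by ring
  refine ⟨model W 1 (3 * u₁), ?_, ?_, ?_, ?_, ?_, ?_⟩
  · rw [model_c₄ hn' hm', C4, e9, e27, HpH_inf]
    ring
  · rw [model_c₆ hn' hm', C6, e9, e27, TpH_inf]
    ring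
  · rw [model_Δ hn' hm', D, e9, e27, dlH_inf]
  · exact model_Δ_ne_zero hΔ hn' hm' (D_ne_zero hn hm)
  · exact model_isSemistable hss isCoprime_one_left hn hm
  · obtain ⟨C, hC⟩ := exists_model_vc_klein (W := W) (m := 1) (n := 3 * u₁) hn' hm'
    refine ⟨C, ?_⟩
    rw [hC, curveInf]
    have e9' : (-9 * (W.c₄ : ℚ)) = 9 * (-(W.c₄ : ℚ)) := by ring
    have e27' : (-27 * (W.c₆ : ℚ)) = 27 * (-(W.c₆ : ℚ)) := by ring
    rw [e9', e27', HpH_inf, TpH_inf]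
    push_cast
    ext
    · rfl
    · rfl
    · rfl
    · simp only
      ring
    · simp only
      ring

/-- **block K5 (+ Transfer)**, the body of helper4's `ModelStatement` (u-chart, `f64df6b`), with
`hOf W = -9 * W.c₄`, `sOf W = -27 * W.c₆` written out. -/
theorem modelStatement_inf :
    ∀ (W : WeierstrassCurve ℤ), W.Δ ≠ 0 → W.IsSemistableModel →
      ∃ M₀ : ℤ, M₀ ≠ 0 ∧ (6 * W.Δ ∣ M₀) ∧
        (∃ C₀ : VariableChange ℚ,
          C₀ • (W.map (Int.castRingHom ℚ)) =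
            base (((-9 * W.c₄ : ℤ)) : ℚ) (((-27 * W.c₆ : ℤ)) : ℚ)) ∧
        ∀ u₁ : ℤ, M₀ ∣ u₁ →
          ∃ W' : WeierstrassCurve ℤ,
            9 * W'.c₄ = -HpH (-9 * W.c₄) (-27 * W.c₆) 1 u₁ ∧
            27 * W'.c₆ = -TpH (-9 * W.c₄) (-27 * W.c₆) 1 u₁ ∧
            W'.Δ = W.Δ * dlH (-9 * W.c₄) (-27 * W.c₆) 1 u₁ ^ 5 ∧ W'.Δ ≠ 0 ∧
            W'.IsSemistableModel ∧
            ∃ C : VariableChange ℚ,
              C • (W'.map (Int.castRingHom ℚ)) =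
                curveInf (((-9 * W.c₄ : ℤ)) : ℚ) (((-27 * W.c₆ : ℤ)) : ℚ) ((u₁ : ℤ) : ℚ) := by
  intro W hΔ hss
  refine ⟨modulus W, ?_, ?_, ?_, ?_⟩
  · unfold modulus
    exact mul_ne_zero (by norm_num) hΔ
  · unfold modulus
    exact ⟨1440 * 127, by ring⟩
  · obtain ⟨C₀, hC₀⟩ := exists_base_vc W
    refine ⟨C₀, ?_⟩
    rw [hC₀]
    push_cast
    rfl
  · intro u₁ hu
    obtain ⟨W', h4, h6, hD, hD0, hss', C, hC⟩ := exists_model_inf hΔ hss u₁ hu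
    refine ⟨W', h4, h6, hD, hD0, hss', C, ?_⟩
    rw [hC]
    push_cast
    rfl

end Fermat.Agent.S52lib.Semi
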