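/-
S52 library, block Semi (helper6): **the integral model of the member `E_{t₁}` of the family.**

For an integral Weierstrass curve `W` put `h' = -c₄(W)`, `s' = -c₆(W)`.  By weighted homogeneity
(`h, s, t` of weights `2, 3, 1`) the member of lead's family `Fam.curve (-9c₄) (-27c₆) (3m/n)` is
`ℚ`-isomorphic to the curve with invariants
`C₄ = -HpH h' s' m n`, `C₆ = -TpH h' s' m n`, `C₄³ - C₆² = 1728·Δ_W·(dlH h' s' m n)⁵`.
If `1728 ∣ n` and `1728 ∣ m - 1` then `C₄ ≡ c₄`, `C₆ ≡ c₆ mod 1728` and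
`W' = ⟨a₁, a₂, a₃, a₄ - 36k₄, a₆ - 3b₂k₄ - 2k₆⟩` (`1728 k₄ = C₄ - c₄`, `1728 k₆ = C₆ - c₆`) is an
integral model with `c₄(W') = C₄`, `c₆(W') = C₆`, `Δ(W') = Δ_W·dlH⁵`.
-/
import Mathlib
import Fermat.Agent.S52lib.FamCurve

set_option autoImplicit false
set_option maxHeartbeats 4000000
set_option maxRecDepth 100000

namespace Fermat.Agent.S52lib.Semi

open Fermat.Agent.S52lib.Fam

section weighted

variable {R : Type*} [CommRing R]

/-- weighted homogeneity of `dlH` (`h, s, t` of weights `2, 3, 1`). -/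
theorem dlH_weighted (h s t u l : R) :
    dlH (l ^ 2 * h) (l ^ 3 * s) (l * t) u = l ^ 12 * dlH h s t u := by
  unfold dlH
  ring

/-- weighted homogeneity of `HpH`. -/
theorem HpH_weighted (h s t u l : R) :
    HpH (l ^ 2 * h) (l ^ 3 * s) (l * t) u = l ^ 22 * HpH h s t u := by
  unfold HpH
  ring

/-- weighted homogeneity of `TpH`. -/
theorem TpH_weighted (h s t u l : R) :
    TpH (l ^ 2 * h) (l ^ 3 * s) (l * t) u = l ^ 33 * TpH h s t u := by
  unfold TpH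
  ring

end weighted

section congruence

variable {R : Type*} [CommRing R] (I : Ideal R)

/-- `dlH h s m n ≡ 1` modulo an ideal containing `n` and `m - 1`. -/
theorem dlH_sub_one_mem (h s : R) {m n : R} (hn : n ∈ I) (hm : m - 1 ∈ I) :
    dlH h s m n - 1 ∈ I := by
  rw [← Ideal.Quotient.eq_zero_iff_mem, map_sub, map_one, map_dlH]
  have h1 : Ideal.Quotient.mk I n = 0 := Ideal.Quotient.eq_zero_iff_mem.mpr hn
  have h2 : Ideal.Quotient.mk I m = 1 := by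
    have := Ideal.Quotient.eq_zero_iff_mem.mpr hm
    rwa [map_sub, map_one, sub_eq_zero] at this
  rw [h1, h2, dlH_one_zero, sub_self]

/-- `HpH h s m n ≡ h` modulo an ideal containing `n` and `m - 1`. -/
theorem HpH_sub_mem (h s : R) {m n : R} (hn : n ∈ I) (hm : m - 1 ∈ I) :
    HpH h s m n - h ∈ I := by
  rw [← Ideal.Quotient.eq_zero_iff_mem, map_sub, map_HpH]
  have h1 : Ideal.Quotient.mk I n = 0 := Ideal.Quotient.eq_zero_iff_mem.mpr hn
  have h2 : Ideal.Quotient.mk I m = 1 := by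
    have := Ideal.Quotient.eq_zero_iff_mem.mpr hm
    rwa [map_sub, map_one, sub_eq_zero] at this
  rw [h1, h2, HpH_one_zero, sub_self]

/-- `TpH h s m n ≡ s` modulo an ideal containing `n` and `m - 1`. -/
theorem TpH_sub_mem (h s : R) {m n : R} (hn : n ∈ I) (hm : m - 1 ∈ I) :
    TpH h s m n - s ∈ I := by
  rw [← Ideal.Quotient.eq_zero_iff_mem, map_sub, map_TpH]
  have h1 : Ideal.Quotient.mk I n = 0 := Ideal.Quotient.eq_zero_iff_mem.mpr hn
  have h2 : Ideal.Quotient.mk I m = 1 := by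
    have := Ideal.Quotient.eq_zero_iff_mem.mpr hm
    rwa [map_sub, map_one, sub_eq_zero] at this
  rw [h1, h2, TpH_one_zero, sub_self]

/-- `dlH h s m n ≡ m ^ 12` modulo an ideal containing `n`. -/
theorem dlH_sub_pow_mem (h s m : R) {n : R} (hn : n ∈ I) : dlH h s m n - m ^ 12 ∈ I := by
  rw [← Ideal.Quotient.eq_zero_iff_mem, map_sub, map_dlH, map_pow]
  have h1 : Ideal.Quotient.mk I n = 0 := Ideal.Quotient.eq_zero_iff_mem.mpr hn
  rw [h1]
  simp [dlH]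

end congruence

/-! ### the integers `C₄`, `C₆`, `D` -/

variable (W : WeierstrassCurve ℤ) (m n : ℤ)

/-- `C₄ = -HpH (-c₄) (-c₆) m n`. -/
def C4 : ℤ := -HpH (-W.c₄) (-W.c₆) m n

/-- `C₆ = -TpH (-c₄) (-c₆) m n`. -/
def C6 : ℤ := -TpH (-W.c₄) (-W.c₆) m n

/-- `D = dlH (-c₄) (-c₆) m n`. -/
def D : ℤ := dlH (-W.c₄) (-W.c₆) m n

/-- `C₄³ - C₆² = 1728·Δ_W·D⁵`. -/
theorem C4_C6_relation : C4 W m n ^ 3 - C6 W m n ^ 2 = 1728 * (W.Δ * D W m n ^ 5) := by
  have h := syzygyH (-W.c₄) (-W.c₆) m n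
  have hc := W.c_relation
  unfold C4 C6 D
  linear_combination (-1 : ℤ) * h - (dlH (-W.c₄) (-W.c₆) m n) ^ 5 * hc

variable {W m n}

theorem C4_sub_mem {k : ℤ} (hn : k ∣ n) (hm : k ∣ m - 1) : k ∣ C4 W m n - W.c₄ := by
  have h := HpH_sub_mem (Ideal.span {k}) (-W.c₄) (-W.c₆) (Ideal.mem_span_singleton.mpr hn)
    (Ideal.mem_span_singleton.mpr hm)
  have h' := Ideal.mem_span_singleton.mp h
  unfold C4
  have : -HpH (-W.c₄) (-W.c₆) m n - W.c₄ = -(HpH (-W.c₄) (-W.c₆) m n - -W.c₄) := by ring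
  rw [this]
  exact (dvd_neg).mpr h'

theorem C6_sub_mem {k : ℤ} (hn : k ∣ n) (hm : k ∣ m - 1) : k ∣ C6 W m n - W.c₆ := by
  have h := TpH_sub_mem (Ideal.span {k}) (-W.c₄) (-W.c₆) (Ideal.mem_span_singleton.mpr hn)
    (Ideal.mem_span_singleton.mpr hm)
  have h' := Ideal.mem_span_singleton.mp h
  unfold C6
  have : -TpH (-W.c₄) (-W.c₆) m n - W.c₆ = -(TpH (-W.c₄) (-W.c₆) m n - -W.c₆) := by ring
  rw [this]
  exact (dvd_neg).mpr h'

theorem D_sub_one_mem {k : ℤ} (hn : k ∣ n) (hm : k ∣ m - 1) : k ∣ D W m n - 1 := by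
  have h := dlH_sub_one_mem (Ideal.span {k}) (-W.c₄) (-W.c₆) (Ideal.mem_span_singleton.mpr hn)
    (Ideal.mem_span_singleton.mpr hm)
  exact Ideal.mem_span_singleton.mp h

theorem D_sub_pow_mem {k : ℤ} (hn : k ∣ n) : k ∣ D W m n - m ^ 12 := by
  have h := dlH_sub_pow_mem (Ideal.span {k}) (-W.c₄) (-W.c₆) m (Ideal.mem_span_singleton.mpr hn)
  exact Ideal.mem_span_singleton.mp h

/-! ### the model -/

variable (W m n)

/-- the model with prescribed `k₄`, `k₆`. -/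
def modelOf (k₄ k₆ : ℤ) : WeierstrassCurve ℤ :=
  ⟨W.a₁, W.a₂, W.a₃, W.a₄ - 36 * k₄, W.a₆ - 3 * W.b₂ * k₄ - 2 * k₆⟩

theorem modelOf_c₄ (k₄ k₆ : ℤ) : (modelOf W k₄ k₆).c₄ = W.c₄ + 1728 * k₄ := by
  simp only [modelOf, WeierstrassCurve.c₄, WeierstrassCurve.b₂, WeierstrassCurve.b₄]
  ring

theorem modelOf_c₆ (k₄ k₆ : ℤ) : (modelOf W k₄ k₆).c₆ = W.c₆ + 1728 * k₆ := by
  simp only [modelOf, WeierstrassCurve.c₆, WeierstrassCurve.b₂, WeierstrassCurve.b₄,
    WeierstrassCurve.b₆]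
  ring

/-- **the integral model `W'`** of the member of the family at `3m/n`. -/
def model : WeierstrassCurve ℤ :=
  modelOf W ((C4 W m n - W.c₄) / 1728) ((C6 W m n - W.c₆) / 1728)

variable {W m n}

theorem model_c₄ (hn : 1728 ∣ n) (hm : 1728 ∣ m - 1) : (model W m n).c₄ = C4 W m n := by
  rw [model, modelOf_c₄, Int.mul_ediv_cancel' (C4_sub_mem hn hm)]
  ring

theorem model_c₆ (hn : 1728 ∣ n) (hm : 1728 ∣ m - 1) : (model W m n).c₆ = C6 W m n := by
  rw [model, modelOf_c₆, Int.mul_ediv_cancel' (C6_sub_mem hn hm)]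
  ring

theorem model_Δ (hn : 1728 ∣ n) (hm : 1728 ∣ m - 1) :
    (model W m n).Δ = W.Δ * D W m n ^ 5 := by
  have h := (model W m n).c_relation
  rw [model_c₄ hn hm, model_c₆ hn hm, C4_C6_relation] at h
  exact mul_left_cancel₀ (by norm_num : (1728 : ℤ) ≠ 0) h

end Fermat.Agent.S52lib.Semi
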