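/-
S52 library, block Semi (helper6): **the integral model `W'` of `E_{3m/n}` is semistable.**

Let `M = 1728·5·127·Δ_W`, `M ∣ n`, `M ∣ m - 1`, `m, n` coprime, `W` semistable.  Then
`Semi.model W m n` is semistable:
* `p ∣ M`: `C₄ ≡ c₄` and `D ≡ 1 mod p`, so `p ∣ Δ' = Δ_W·D⁵` iff `p ∣ Δ_W`, and then `p ∤ c₄ ≡ C₄`;
* `p ∤ M`: `p ∣ D` and `p ∣ C₄` give `p ∣ C₆` by the syzygy, which contradicts lead's Bezout
  certificate (in `ZMod p`, at `t̄ = m̄/n̄`) if `p ∤ n`, and coprimality (`D ≡ m¹² mod n`) if `p ∣ n`.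
-/
import Mathlib
import Fermat.Prelude.Def_FLTPrelim_Modularity
import Fermat.Agent.S52lib.Semi.Model

set_option autoImplicit false
set_option maxHeartbeats 4000000
set_option maxRecDepth 100000

namespace Fermat.Agent.S52lib.Semi

open Fermat.Agent.S52lib.Fam

/-- the closeness modulus. -/
def modulus (W : WeierstrassCurve ℤ) : ℤ := 1728 * 5 * 127 * W.Δ

lemma bzN_factor : (bzN : ℤ) = 2 ^ 26 * 3 ^ 17 * 5 ^ 8 * 127 ^ 2 := by
  norm_num [bzN]

lemma dvd_modulus_of_dvd_bzN (W : WeierstrassCurve ℤ) {p : ℕ} (hp : p.Prime)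
    (h : (p : ℤ) ∣ (bzN : ℤ)) : (p : ℤ) ∣ modulus W := by
  have hp' : Prime (p : ℤ) := Nat.prime_iff_prime_int.mp hp
  rw [bzN_factor] at h
  unfold modulus
  rcases hp'.dvd_mul.mp h with h | h
  · rcases hp'.dvd_mul.mp h with h | h
    · rcases hp'.dvd_mul.mp h with h | h
      · have h2 := hp'.dvd_of_dvd_pow h
        exact Dvd.dvd.mul_right (Dvd.dvd.mul_right (Dvd.dvd.mul_right
          (h2.trans ⟨864, by norm_num⟩) _) _) _
      · have h3 := hp'.dvd_of_dvd_pow h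
        exact Dvd.dvd.mul_right (Dvd.dvd.mul_right (Dvd.dvd.mul_right
          (h3.trans ⟨576, by norm_num⟩) _) _) _
    · have h5 := hp'.dvd_of_dvd_pow h
      exact Dvd.dvd.mul_right (Dvd.dvd.mul_right (Dvd.dvd.mul_left h5 _) _) _
  · have h127 := hp'.dvd_of_dvd_pow h
    exact Dvd.dvd.mul_right (Dvd.dvd.mul_left h127 _) _

lemma dvd_modulus_1728 (W : WeierstrassCurve ℤ) : (1728 : ℤ) ∣ modulus W :=
  Dvd.dvd.mul_right (Dvd.dvd.mul_right (Dvd.dvd.mul_right (dvd_refl _) _) _) _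

lemma Δ_dvd_modulus (W : WeierstrassCurve ℤ) : W.Δ ∣ modulus W :=
  Dvd.intro_left _ rfl

variable {W : WeierstrassCurve ℤ} {m n : ℤ}

/-- **semistability of the model.** -/
theorem model_isSemistable (hss : W.IsSemistableModel) (hcop : IsCoprime m n)
    (hn : modulus W ∣ n) (hm : modulus W ∣ m - 1) : (model W m n).IsSemistableModel := by
  have hn' : (1728 : ℤ) ∣ n := (dvd_modulus_1728 W).trans hn
  have hm' : (1728 : ℤ) ∣ m - 1 := (dvd_modulus_1728 W).trans hm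
  intro p hp hpΔ hpc
  have hp' : Prime (p : ℤ) := Nat.prime_iff_prime_int.mp hp
  rw [model_Δ hn' hm'] at hpΔ
  rw [model_c₄ hn' hm'] at hpc
  by_cases hpM : (p : ℤ) ∣ modulus W
  · -- `p ∣ M`
    have hpn : (p : ℤ) ∣ n := hpM.trans hn
    have hpm : (p : ℤ) ∣ m - 1 := hpM.trans hm
    have hD : ¬ (p : ℤ) ∣ D W m n := by
      intro hd
      have h1 : (p : ℤ) ∣ D W m n - 1 := D_sub_one_mem hpn hpm
      have h2 : (p : ℤ) ∣ 1 := by
        have := dvd_sub hd h1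
        simpa using this
      exact hp'.not_dvd_one h2
    have hΔW : (p : ℤ) ∣ W.Δ := by
      rcases hp'.dvd_mul.mp hpΔ with h | h
      · exact h
      · exact absurd (hp'.dvd_of_dvd_pow h) hD
    have hc4 : (p : ℤ) ∣ W.c₄ := by
      have h1 : (p : ℤ) ∣ C4 W m n - W.c₄ := C4_sub_mem hpn hpm
      have := dvd_sub hpc h1
      simpa using this
    exact hss p hp hΔW hc4
  · -- `p ∤ M`
    have hpΔW : ¬ (p : ℤ) ∣ W.Δ := fun h => hpM (h.trans (Δ_dvd_modulus W))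
    have hD : (p : ℤ) ∣ D W m n := by
      rcases hp'.dvd_mul.mp hpΔ with h | h
      · exact absurd h hpΔW
      · exact hp'.dvd_of_dvd_pow h
    have hH : (p : ℤ) ∣ HpH (-W.c₄) (-W.c₆) m n := by
      have := (dvd_neg).mpr hpc
      simpa [C4] using this
    have hT : (p : ℤ) ∣ TpH (-W.c₄) (-W.c₆) m n := by
      have h := syzygyH (-W.c₄) (-W.c₆) m n
      have h1 : (p : ℤ) ∣ TpH (-W.c₄) (-W.c₆) m n ^ 2 := by
        have e : TpH (-W.c₄) (-W.c₆) m n ^ 2 =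
            ((-W.c₆) ^ 2 + (-W.c₄) ^ 3) * dlH (-W.c₄) (-W.c₆) m n ^ 5
              - HpH (-W.c₄) (-W.c₆) m n ^ 3 := by linear_combination h
        rw [e]
        apply dvd_sub
        · exact Dvd.dvd.mul_left (Dvd.dvd.pow hD (by norm_num)) _
        · exact Dvd.dvd.pow hH (by norm_num)
      exact hp'.dvd_of_dvd_pow h1
    by_cases hpn : (p : ℤ) ∣ n
    · -- `p ∣ n`: then `p ∣ m`
      have h1 : (p : ℤ) ∣ D W m n - m ^ 12 := D_sub_pow_mem hpn
      have h2 : (p : ℤ) ∣ m ^ 12 := by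
        have := dvd_sub hD h1
        simpa using this
      have h3 : (p : ℤ) ∣ m := hp'.dvd_of_dvd_pow h2
      exact hp'.not_isUnit (hcop.isUnit_of_dvd' h3 hpn)
    · -- `p ∤ n`: Bezout in `ZMod p`
      have : Fact p.Prime := ⟨hp⟩
      set φ : ℤ →+* ZMod p := Int.castRingHom (ZMod p) with hφ
      have hzero : ∀ {x : ℤ}, (p : ℤ) ∣ x → φ x = 0 := fun {x} hx =>
        (ZMod.intCast_zmod_eq_zero_iff_dvd x p).mpr hx
      have hnz : ∀ {x : ℤ}, ¬ (p : ℤ) ∣ x → φ x ≠ 0 := fun {x} hx h0 =>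
        hx ((ZMod.intCast_zmod_eq_zero_iff_dvd x p).mp h0)
      have hn0 : φ n ≠ 0 := hnz hpn
      set t : ZMod p := φ m / φ n with ht
      have hmt : φ m = φ n * t := by rw [ht]; field_simp
      have e12 : dl (φ (-W.c₄)) (φ (-W.c₆)) t = 0 := by
        have h1 : φ (dlH (-W.c₄) (-W.c₆) m n) = 0 := hzero hD
        rw [map_dlH, hmt] at h1
        have h2 : dlH (φ (-W.c₄)) (φ (-W.c₆)) (φ n * t) (φ n * 1) = 0 := by rwa [mul_one]
        rw [dlH_smul, dlH_one] at h2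
        exact (mul_eq_zero.mp h2).resolve_left (pow_ne_zero _ hn0)
      have e20 : Hp (φ (-W.c₄)) (φ (-W.c₆)) t = 0 := by
        have h1 : φ (HpH (-W.c₄) (-W.c₆) m n) = 0 := hzero hH
        rw [map_HpH, hmt] at h1
        have h2 : HpH (φ (-W.c₄)) (φ (-W.c₆)) (φ n * t) (φ n * 1) = 0 := by rwa [mul_one]
        rw [HpH_smul, HpH_one] at h2
        exact (mul_eq_zero.mp h2).resolve_left (pow_ne_zero _ hn0)
      have e30 : Tp (φ (-W.c₄)) (φ (-W.c₆)) t = 0 := by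
        have h1 : φ (TpH (-W.c₄) (-W.c₆) m n) = 0 := hzero hT
        rw [map_TpH, hmt] at h1
        have h2 : TpH (φ (-W.c₄)) (φ (-W.c₆)) (φ n * t) (φ n * 1) = 0 := by rwa [mul_one]
        rw [TpH_smul, TpH_one] at h2
        exact (mul_eq_zero.mp h2).resolve_left (pow_ne_zero _ hn0)
      have hbz := bezout (φ (-W.c₄)) (φ (-W.c₆)) t
      rw [e12, e20, e30, mul_zero, mul_zero, mul_zero, add_zero, add_zero] at hbz
      have hN : ((bzN : ℕ) : ZMod p) ≠ 0 := by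
        intro h0
        have h1 : φ ((bzN : ℕ) : ℤ) = 0 := by rw [hφ]; simpa using h0
        have h2 : (p : ℤ) ∣ ((bzN : ℕ) : ℤ) := (ZMod.intCast_zmod_eq_zero_iff_dvd _ p).mp h1
        exact hpM (dvd_modulus_of_dvd_bzN W hp h2)
      have hdisc : φ (-W.c₆) ^ 2 + φ (-W.c₄) ^ 3 ≠ 0 := by
        have e : φ (-W.c₆) ^ 2 + φ (-W.c₄) ^ 3 = φ (-(1728 * W.Δ)) := by
          rw [W.c_relation]
          simp only [map_neg, map_sub, map_pow]
          ring
        rw [e]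
        apply hnz
        intro hd
        have hd' : (p : ℤ) ∣ 1728 * W.Δ := (dvd_neg).mp hd
        apply hpM
        unfold modulus
        have : (1728 : ℤ) * 5 * 127 * W.Δ = (1728 * W.Δ) * (5 * 127) := by ring
        rw [this]
        exact Dvd.dvd.mul_right hd' _
      exact (mul_ne_zero hN (pow_ne_zero 6 hdisc)) hbz.symm

/-- the discriminant of the model is nonzero as soon as `D ≠ 0`. -/
theorem model_Δ_ne_zero (hΔ : W.Δ ≠ 0) (hn : (1728 : ℤ) ∣ n) (hm : (1728 : ℤ) ∣ m - 1)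
    (hD : D W m n ≠ 0) : (model W m n).Δ ≠ 0 := by
  rw [model_Δ hn hm]
  exact mul_ne_zero hΔ (pow_ne_zero _ hD)

end Fermat.Agent.S52lib.Semi
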