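/-
S52 library, block Semi (helper6): **the `ℚ`-isomorphisms** `W_ℚ ≅ Fam.base (-9c₄) (-27c₆)` and
`W'_ℚ ≅ Fam.curve (-9c₄) (-27c₆) (3m/n)` for the integral model `W' = Semi.model W m n`.
-/
import Mathlib
import Fermat.Agent.S52lib.Semi.Semistable

set_option autoImplicit false
set_option maxHeartbeats 4000000
set_option maxRecDepth 100000

namespace Fermat.Agent.S52lib.Semi

open Fermat.Agent.S52lib.Fam WeierstrassCurve

/-- the scaled short Weierstrass form of a curve over `ℚ`: for `l ≠ 0` there is a change of variables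
taking `E` to `y² = x³ - (l⁴c₄/48) x - l⁶c₆/864`. -/
theorem exists_vc_short (E : WeierstrassCurve ℚ) {l : ℚ} (hl : l ≠ 0) :
    ∃ C : VariableChange ℚ,
      C • E = ⟨0, 0, 0, -(l ^ 4 * E.c₄) / 48, -(l ^ 6 * E.c₆) / 864⟩ := by
  refine ⟨⟨(Units.mk0 l hl)⁻¹, -E.b₂ / 12, -E.a₁ / 2, -(E.a₃ - E.a₁ * E.b₂ / 12) / 2⟩, ?_⟩
  ext
  · rw [variableChange_a₁]
    simp only [inv_inv, Units.val_mk0]
    ring
  · rw [variableChange_a₂]
    simp only [inv_inv, Units.val_mk0, WeierstrassCurve.b₂]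
    ring
  · rw [variableChange_a₃]
    simp only [inv_inv, Units.val_mk0, WeierstrassCurve.b₂]
    ring
  · rw [variableChange_a₄]
    simp only [inv_inv, Units.val_mk0, WeierstrassCurve.b₂, WeierstrassCurve.c₄,
      WeierstrassCurve.b₄]
    ring
  · rw [variableChange_a₆]
    simp only [inv_inv, Units.val_mk0, WeierstrassCurve.b₂, WeierstrassCurve.c₆,
      WeierstrassCurve.b₄, WeierstrassCurve.b₆]
    ring

/-- **`W_ℚ ≅ Fam.base (-9c₄) (-27c₆)`.** -/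
theorem exists_base_vc (W : WeierstrassCurve ℤ) :
    ∃ C₀ : VariableChange ℚ,
      C₀ • (W.map (Int.castRingHom ℚ)) = Fam.base (-9 * (W.c₄ : ℚ)) (-27 * (W.c₆ : ℚ)) := by
  obtain ⟨C, hC⟩ := exists_vc_short (W.map (Int.castRingHom ℚ)) (l := 6) (by norm_num)
  refine ⟨C, ?_⟩
  rw [hC, WeierstrassCurve.map_c₄, WeierstrassCurve.map_c₆, Fam.base]
  simp only [eq_intCast]
  ext <;> simp <;> ring

variable (W : WeierstrassCurve ℤ) (m n : ℤ)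

lemma cast_C4 : ((C4 W m n : ℤ) : ℚ) = -HpH (-(W.c₄ : ℚ)) (-(W.c₆ : ℚ)) (m : ℚ) (n : ℚ) := by
  have := map_HpH (Int.castRingHom ℚ) (-W.c₄) (-W.c₆) m n
  simp only [eq_intCast, Int.cast_neg] at this
  rw [C4, Int.cast_neg, this]

lemma cast_C6 : ((C6 W m n : ℤ) : ℚ) = -TpH (-(W.c₄ : ℚ)) (-(W.c₆ : ℚ)) (m : ℚ) (n : ℚ) := by
  have := map_TpH (Int.castRingHom ℚ) (-W.c₄) (-W.c₆) m n
  simp only [eq_intCast, Int.cast_neg] at this
  rw [C6, Int.cast_neg, this]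

lemma cast_D : ((D W m n : ℤ) : ℚ) = dlH (-(W.c₄ : ℚ)) (-(W.c₆ : ℚ)) (m : ℚ) (n : ℚ) := by
  have := map_dlH (Int.castRingHom ℚ) (-W.c₄) (-W.c₆) m n
  simp only [eq_intCast, Int.cast_neg] at this
  rw [D, this]

variable {W m n}

/-- the value of `Hp` at `3m/n` in terms of the binary form. -/
lemma Hp_at (h s : ℚ) (hn : (n : ℚ) ≠ 0) :
    Hp (3 ^ 2 * h) (3 ^ 3 * s) (3 * ((m : ℚ) / n)) = 3 ^ 22 * HpH h s m n / (n : ℚ) ^ 20 := by
  have h1 := HpH_weighted h s ((m : ℚ) / n) 1 3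
  rw [HpH_one] at h1
  have h2 := HpH_smul h s ((m : ℚ) / n) 1 (n : ℚ)
  rw [mul_one, mul_div_cancel₀ _ hn] at h2
  rw [h1, h2]
  field_simp

lemma Tp_at (h s : ℚ) (hn : (n : ℚ) ≠ 0) :
    Tp (3 ^ 2 * h) (3 ^ 3 * s) (3 * ((m : ℚ) / n)) = 3 ^ 33 * TpH h s m n / (n : ℚ) ^ 30 := by
  have h1 := TpH_weighted h s ((m : ℚ) / n) 1 3
  rw [TpH_one] at h1
  have h2 := TpH_smul h s ((m : ℚ) / n) 1 (n : ℚ)
  rw [mul_one, mul_div_cancel₀ _ hn] at h2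
  rw [h1, h2]
  field_simp

lemma dl_at (h s : ℚ) (hn : (n : ℚ) ≠ 0) :
    dl (3 ^ 2 * h) (3 ^ 3 * s) (3 * ((m : ℚ) / n)) = 3 ^ 12 * dlH h s m n / (n : ℚ) ^ 12 := by
  have h1 := dlH_weighted h s ((m : ℚ) / n) 1 3
  rw [dlH_one] at h1
  have h2 := dlH_smul h s ((m : ℚ) / n) 1 (n : ℚ)
  rw [mul_one, mul_div_cancel₀ _ hn] at h2
  rw [h1, h2]
  field_simp

/-- **`W'_ℚ ≅ Fam.curve (-9c₄) (-27c₆) (3m/n)`.** -/
theorem exists_model_vc (hn0 : n ≠ 0) (hn : (1728 : ℤ) ∣ n) (hm : (1728 : ℤ) ∣ m - 1) :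
    ∃ C : VariableChange ℚ,
      C • Fam.curve (-9 * (W.c₄ : ℚ)) (-27 * (W.c₆ : ℚ)) (3 * ((m : ℚ) / n)) =
        (model W m n).map (Int.castRingHom ℚ) := by
  have hnq : (n : ℚ) ≠ 0 := by exact_mod_cast hn0
  have hl : (1458 : ℚ) / (n : ℚ) ^ 5 ≠ 0 := div_ne_zero (by norm_num) (pow_ne_zero _ hnq)
  obtain ⟨C, hC⟩ := exists_vc_short ((model W m n).map (Int.castRingHom ℚ)) hl
  refine ⟨C⁻¹, ?_⟩
  have key : C • ((model W m n).map (Int.castRingHom ℚ)) =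
      Fam.curve (-9 * (W.c₄ : ℚ)) (-27 * (W.c₆ : ℚ)) (3 * ((m : ℚ) / n)) := by
    rw [hC, WeierstrassCurve.map_c₄, WeierstrassCurve.map_c₆, model_c₄ hn hm, model_c₆ hn hm,
      Fam.curve]
    simp only [eq_intCast]
    rw [cast_C4, cast_C6]
    have e1 : (-9 * (W.c₄ : ℚ)) = 3 ^ 2 * (-(W.c₄ : ℚ)) := by ring
    have e2 : (-27 * (W.c₆ : ℚ)) = 3 ^ 3 * (-(W.c₆ : ℚ)) := by ring
    rw [e1, e2, Hp_at _ _ hnq, Tp_at _ _ hnq]
    ext
    · rfl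
    · rfl
    · rfl
    · simp only
      field_simp
      ring
    · simp only
      field_simp
      ring
  rw [← key, ← mul_smul, inv_mul_cancel, one_smul]

/-- **`W'_ℚ ≅ y² = x³ + 27·HpH(-c₄,-c₆,m,n)·x + 54·TpH(-c₄,-c₆,m,n)`** (the Klein form `𝓔(m·e - n·e₂)`
of the fibre, for any `e` with `H(e) = -c₄`, `T(e) = -c₆`). -/
theorem exists_model_vc_klein (hn : (1728 : ℤ) ∣ n) (hm : (1728 : ℤ) ∣ m - 1) :
    ∃ C : VariableChange ℚ,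
      C • ((model W m n).map (Int.castRingHom ℚ)) =
        ⟨0, 0, 0, 27 * HpH (-(W.c₄ : ℚ)) (-(W.c₆ : ℚ)) (m : ℚ) (n : ℚ),
          54 * TpH (-(W.c₄ : ℚ)) (-(W.c₆ : ℚ)) (m : ℚ) (n : ℚ)⟩ := by
  obtain ⟨C, hC⟩ := exists_vc_short ((model W m n).map (Int.castRingHom ℚ)) (l := 6)
    (by norm_num)
  refine ⟨C, ?_⟩
  rw [hC, WeierstrassCurve.map_c₄, WeierstrassCurve.map_c₆, model_c₄ hn hm, model_c₆ hn hm]
  simp only [eq_intCast]
  rw [cast_C4, cast_C6]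
  ext
  · rfl
  · rfl
  · rfl
  · simp only
    ring
  · simp only
    ring

/-- **`W_ℚ ≅ y² = x³ - 27c₄ x - 54c₆`** (the Klein form `𝓔(e)`). -/
theorem exists_base_vc_klein (W : WeierstrassCurve ℤ) :
    ∃ C₀ : VariableChange ℚ,
      C₀ • (W.map (Int.castRingHom ℚ)) = ⟨0, 0, 0, -27 * (W.c₄ : ℚ), -54 * (W.c₆ : ℚ)⟩ := by
  obtain ⟨C, hC⟩ := exists_vc_short (W.map (Int.castRingHom ℚ)) (l := 6) (by norm_num)
  refine ⟨C, ?_⟩
  rw [hC, WeierstrassCurve.map_c₄, WeierstrassCurve.map_c₆]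
  simp only [eq_intCast]
  ext
  · rfl
  · rfl
  · rfl
  · simp only
    ring
  · simp only
    ring

end Fermat.Agent.S52lib.Semi
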