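/-
S52 library, block Semi (helper6): **block (2) of the 3–5 switch: the semistable integral model of
the member `E_{t₁}`, `t₁ = 3m/n`, of lead's family.**

`exists_model`: for a semistable `W` (`Δ ≠ 0`), coprime integers `m, n` with `n ≠ 0`,
`M ∣ n`, `M ∣ m - 1` (`M = Semi.modulus W = 1728·5·127·Δ_W`) there is an integral Weierstrass curve
`W'` with
* `c₄(W') = -HpH (-c₄) (-c₆) m n`, `c₆(W') = -TpH (-c₄) (-c₆) m n`,
  `Δ(W') = Δ_W · (dlH (-c₄) (-c₆) m n)⁵ ≠ 0`;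
* `W'` semistable;
* `W'_ℚ = C • Fam.curve (-9c₄) (-27c₆) (3m/n)` for a change of variables `C` over `ℚ`.
Together with `exists_base_vc : C₀ • W_ℚ = Fam.base (-9c₄) (-27c₆)`.
-/
import Mathlib
import Fermat.Agent.S52lib.Semi.Iso

set_option autoImplicit false

namespace Fermat.Agent.S52lib.Semi

open Fermat.Agent.S52lib.Fam WeierstrassCurve

variable {W : WeierstrassCurve ℤ} {m n : ℤ}

/-- `D ≡ 1 mod M`, so `D ≠ 0`. -/
theorem D_ne_zero (hn : modulus W ∣ n) (hm : modulus W ∣ m - 1) : D W m n ≠ 0 := by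
  intro h0
  have h1 : (1728 : ℤ) ∣ D W m n - 1 :=
    D_sub_one_mem ((dvd_modulus_1728 W).trans hn) ((dvd_modulus_1728 W).trans hm)
  rw [h0] at h1
  norm_num at h1

/-- **block (2): the semistable integral model.** -/
theorem exists_model (hΔ : W.Δ ≠ 0) (hss : W.IsSemistableModel) (hcop : IsCoprime m n)
    (hn0 : n ≠ 0) (hn : modulus W ∣ n) (hm : modulus W ∣ m - 1) :
    ∃ W' : WeierstrassCurve ℤ,
      W'.c₄ = -HpH (-W.c₄) (-W.c₆) m n ∧ W'.c₆ = -TpH (-W.c₄) (-W.c₆) m n ∧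
      W'.Δ = W.Δ * dlH (-W.c₄) (-W.c₆) m n ^ 5 ∧ W'.Δ ≠ 0 ∧ W'.IsSemistableModel ∧
      ∃ C : VariableChange ℚ,
        C • Fam.curve (-9 * (W.c₄ : ℚ)) (-27 * (W.c₆ : ℚ)) (3 * ((m : ℚ) / n)) =
          W'.map (Int.castRingHom ℚ) := by
  have hn' : (1728 : ℤ) ∣ n := (dvd_modulus_1728 W).trans hn
  have hm' : (1728 : ℤ) ∣ m - 1 := (dvd_modulus_1728 W).trans hm
  exact ⟨model W m n, model_c₄ hn' hm', model_c₆ hn' hm', model_Δ hn' hm',
    model_Δ_ne_zero hΔ hn' hm' (D_ne_zero hn hm), model_isSemistable hss hcop hn hm,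
    exists_model_vc hn0 hn' hm'⟩

/-- a prime dividing `Δ(W')` but not the modulus divides `dlH`. -/
theorem dvd_dlH_of_dvd_Δ {p : ℕ} (hp : p.Prime) (hpM : ¬ (p : ℤ) ∣ modulus W)
    (hn : (1728 : ℤ) ∣ n) (hm : (1728 : ℤ) ∣ m - 1) (h : (p : ℤ) ∣ (model W m n).Δ) :
    (p : ℤ) ∣ dlH (-W.c₄) (-W.c₆) m n := by
  have hp' : Prime (p : ℤ) := Nat.prime_iff_prime_int.mp hp
  rw [model_Δ hn hm] at h
  rcases hp'.dvd_mul.mp h with h | h
  · exact absurd (h.trans (Δ_dvd_modulus W)) hpM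
  · exact hp'.dvd_of_dvd_pow h

end Fermat.Agent.S52lib.Semi
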